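/-
Programme S33, brick N2-cmpall, part (A) (helper39): **JSpec-F for divisors** = the input `hJ` of
`Cmp67.Final.cmp_of_dict` for the global bridge `MAZ.JAll39.jAll` (and, with `X = S.s x`, for `jTop`).

`Fam : Bridge39.ChartIsoFamilyN A N K c0`, `L ⊇ K` finite normal, `X` a divisor of degree `0` of `ℚ̄·F_N`
with `L`-rational support, `xL := Fam.dDiv L hle X ∈ Pic X_L` (the finite-level class behind
`jAll_mk` / `jDiv`).  Then EVERY framed line `(M_L, φ)` of class `xL` has a line pair of degree `0` whose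
class in `J₀(N)(ℚ̄)` is `[X]`.
-/
import Mathlib
import Fermat.Agent.T1B.Bridge39.Pairs
import Fermat.Agent.T1B.Hol31.DictExtEff

set_option autoImplicit false
set_option linter.unusedSectionVars false
set_option linter.style.haveILetI false
set_option synthInstance.maxHeartbeats 400000
set_option maxHeartbeats 1000000

noncomputable section

open HahnSeries AlgebraicCurve ModularCurve IntermediateField TensorProduct
open Fermat.Agent.RED.Interface4
open Fermat.Agent.Jac Fermat.Agent.Jac.LineOps39 Fermat.Agent.Jac.JGroup85Pic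
open Fermat.Agent.Jac.AbelJacobi73 Fermat.Agent.T1.Adapt96 Fermat.Agent.T1.Adapt39
open Fermat.Agent.Jac.BaseChange75 Fermat.Agent.T1.RedIface75 Fermat.Agent.T1.PtLine75
open Fermat.Agent.T1.Dict67 Fermat.Agent.T1.HubInst98
open Fermat.Agent.T1.Dict59 Fermat.Agent.T1.CentresClass47
open Fermat.Agent.T1B.Hol31.DictExt Fermat.Agent.T1B.Hol31.DictExtEff
open Fermat.Agent.T1B.Bridge39
open scoped Fermat.Agent.Jac.BaseChange75

namespace Fermat.Agent.S33P.CmpAll39

variable {A : ValuationSubring Qbar} {N : ℕ} [NeZero N] {K : IntermediateField ℚ Qbar}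
  {B0 B1 B01 : Type} [CommRing B0] [CommRing B1] [CommRing B01]
  [Algebra (AK A K) B0] [Algebra (AK A K) B1] [Algebra (AK A K) B01] [Algebra B0 B01]
  [Algebra B1 B01] [IsScalarTower (AK A K) B0 B01] [IsScalarTower (AK A K) B1 B01]
  {c0 : TwoChart (AK A K) B0 B1 B01}
  (Fam : ChartIsoFamilyN A N K c0)
  (L : IntermediateField ℚ Qbar) [FiniteDimensional ℚ L] [Normal ℚ L] (hle : K ≤ L)

/-- **JSpec-F for divisors**: every framed line of class `Fam.dDiv L hle X` has a line pair of degree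
`0` and of class `[X]` in `J₀(N)(ℚ̄)`. -/
theorem hJ_dDiv (X : Divisor.degZero (K := Qbar) (F := Fbar N))
    (hX : ∀ w, (X : Divisor Qbar (Fbar N)) w ≠ 0 → IsRatPlace L w) :
    letI := algAKL A hle
    ∀ (ML : QC2 ↥L (↥L ⊗[AK A K] B0) (↥L ⊗[AK A K] B1) (↥L ⊗[AK A K] B01)) (hML : ML.IsLine)
      (φ : Framing (Fam.E L hle) ML),
      Fam.dDiv L hle (X : Divisor Qbar (Fbar N)) = LinePic.mk (c0.baseChange ↥L) ML hML →
        LinePair.deg (framePair (Fam.E L hle) hML φ) = 0 ∧
          LinePair.cls (framePair (Fam.E L hle) hML φ) = Pic0.mk X := by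
  letI := algAKL A hle
  haveI := Fam.ded0 L hle
  haveI := Fam.ded1 L hle
  intro ML hML φ h
  obtain ⟨DA, DB, hA, hB, hdiv, hd⟩ := Fam.dDiv_exists_pairs L hle (X : Divisor Qbar (Fbar N)) hX
  have hmul : LinePic.mk (c0.baseChange ↥L) ML hML * Eff.cl (c0.baseChange ↥L) DB hB =
      Eff.cl (c0.baseChange ↥L) DA hA := by
    rw [← h, hd, inv_mul_cancel_right]
  have hdeg : LinePair.divL (Eff.lp (Fam.E L hle) DA hA) -
      LinePair.divL (Eff.lp (Fam.E L hle) DB hB) ∈ Divisor.degZero (K := Qbar) (F := Fbar N) := by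
    rw [hdiv]
    exact X.2
  obtain ⟨h0, hc⟩ := cls_framePair_of_mul_eq (Fam.E L hle) (Fam.isCoord L hle).nonConst hML φ
    DA DB hA hB hmul hdeg
  refine ⟨h0, ?_⟩
  rw [hc]
  exact congrArg Pic0.mk (Subtype.ext hdiv)

/-- The same for an arbitrary point `x` and a representative: `Good P := deg P = 0 ∧ cls P = x`. -/
theorem hJ_dDiv_of_mk (x : JZero N) (X : Divisor.degZero (K := Qbar) (F := Fbar N))
    (hxX : Pic0.mk X = x) (hX : ∀ w, (X : Divisor Qbar (Fbar N)) w ≠ 0 → IsRatPlace L w) :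
    letI := algAKL A hle
    ∀ (ML : QC2 ↥L (↥L ⊗[AK A K] B0) (↥L ⊗[AK A K] B1) (↥L ⊗[AK A K] B01)) (hML : ML.IsLine)
      (φ : Framing (Fam.E L hle) ML),
      Fam.dDiv L hle (X : Divisor Qbar (Fbar N)) = LinePic.mk (c0.baseChange ↥L) ML hML →
        LinePair.deg (framePair (Fam.E L hle) hML φ) = 0 ∧
          LinePair.cls (framePair (Fam.E L hle) hML φ) = x := by
  subst hxX
  exact hJ_dDiv Fam L hle X hX

end Fermat.Agent.S33P.CmpAll39
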