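/-
Programme S33, brick N2-cmpall (helper39 + helper38): the existential `hcmp` of
`CmpAll38.cmpall'` (for `j := jAll Fam` on all of `J₀(N)(ℚ̄)`) restricted to any subgroup
`T ≤ J₀(N)(ℚ̄)` (`cmpall_sub`; `T := torsPinf N p` for S33, `T := torsP N p` for S44 via
`JAll39.jAll_eq_jTop`).
-/
import Mathlib
import Fermat.Agent.S33P.CmpAll38.Main
import Fermat.Agent.S33P.CmpAll39.JSpecDiv

set_option autoImplicit false
set_option linter.unusedSectionVars false
set_option linter.unusedVariables false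
set_option linter.style.haveILetI false
set_option linter.overlappingInstances false
set_option synthInstance.maxHeartbeats 400000
set_option maxHeartbeats 1000000

open HahnSeries AlgebraicCurve ModularCurve IntermediateField TensorProduct
open Fermat.Agent.TW.B5.Iface Fermat.Agent.RED.Interface4 Fermat.Agent.T1.HubInst98
open Fermat.Agent.T1.IntSub47 Fermat.Agent.Jac Fermat.Agent.T1.RedIface75 Fermat.Agent.T1.Red11
open Fermat.Agent.T1.Dict59 Fermat.Agent.T1.Dict67
open Fermat.Agent.T1B.Local66.LocalBase Fermat.Agent.T1B.Local66.Union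
open Fermat.Agent.T1B.Bridge54.IpInst Fermat.Agent.T1B.Bridge54.IpRes
open Fermat.Agent.T1B.Bridge54.IpUnion
open Fermat.Agent.T1B.Bridge39
open Fermat.Agent.T1B.GalInput65
open Fermat.Agent.MAZ.JAll39
open Fermat.Agent.S33P.CmpAll38

noncomputable section

namespace Fermat.Agent.S33P.CmpAll39

variable {p : ℕ} [Fact p.Prime] {K : IntermediateField ℚ Qbar} {N : ℕ} [NeZero N]
  {B0 B1 B01 : Type} [CommRing B0] [CommRing B1] [CommRing B01]
  [Algebra (Wb p K) B0] [Algebra (Wb p K) B1] [Algebra (Wb p K) B01] [Algebra B0 B01]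
  [Algebra B1 B01] [IsScalarTower (Wb p K) B0 B01] [IsScalarTower (Wb p K) B1 B01]
  {c0 : TwoChart (Wb p K) B0 B1 B01}

attribute [local instance] algWKbar

variable (Fam : ChartIsoFamilyN (padicPlace p) N K c0)

variable [FiniteDimensional ℚ K] [Nonempty (NLevel p K)]
  {P : ∀ E : NLevel p K, Subgroup (PicO c0 E)}
  {hP1 : Compatible c0 (fun E => P E ⊓ J1Fam c0 E)}

/-- N2-cmpall for the restriction of `jAll` to a subgroup `T` of `J₀(N)(ℚ̄)`
(`T := torsPinf N p`, `T := torsP N p`): the hypothesis `hcmp` of `Toric84.toric_inf_field` /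
`Toric65.toric_inf_J1top_ex` / `Toric50.UnionFields.toric_field` verbatim, with
`j := (jAll Fam).comp T.subtype`. -/
theorem cmpall_sub (T : AddSubgroup (JZero N)) (ker : JZero N → Prop)
    (Ker : ∀ E : NLevel p K, J1 c0 ((levelFamilyN p K).O E) → Prop)
    (hinjE : ∀ E : NLevel p K, Function.Injective (bcE c0 E))
    (hlevel : ∀ (E : NLevel p K) (x : JZero N), ker x →
      ∀ (y : J1 c0 ((levelFamilyN p K).O E)) (xL : Fermat.Agent.T1B.ADPe93.Inst.PicL c0 E),
        Hxy E (y : PicX c0 ((levelFamilyN p K).O E)) xL → HJ Fam E xL x → Ker E y) :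
    ∀ x : ↥T, ker (x : JZero N) →
      ((jAll Fam).comp T.subtype) x ∈ unionSub c0 (fun E => P E ⊓ J1Fam c0 E) hP1 →
      ∃ (E : NLevel p K) (y : J1 c0 ((levelFamilyN p K).O E)),
        Additive.ofMul (bcO c0 E (y : PicX c0 ((levelFamilyN p K).O E))) =
          ((jAll Fam).comp T.subtype) x ∧ Ker E y :=
  fun x hx hxJ => cmpall' Fam ker Ker hinjE hlevel (x : JZero N) hx hxJ

end Fermat.Agent.S33P.CmpAll39
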